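import Fermat.Agent.RegularFLT.Main
import Fermat.Agent.RegularFLT.SmallPrimes
import Fermat.Agent.RegularFLT.FreyEleven
import Fermat.Agent.CyclotomicPID.Seven
import Fermat.Agent.CyclotomicPID.Thirteen

/-!
# Frey packages with small exponent

No Frey package has exponent `5`, `7`, `11` or `13`, so the exponent is at least `17`.
-/

namespace Fermat.Agent.SmallExponent

open Fermat.Agent.RegularFLT

/-- No Frey package has exponent `5`. -/
theorem freyPackage_five_false (P : FreyPackage) (hP : P.p = 5) : False := by
  have : Fact (Nat.Prime 5) := ⟨by norm_num⟩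
  have : NeZero ((5 : ℕ) : ℚ) := ⟨by norm_num⟩
  have : IsCyclotomicExtension {5} ℚ (CyclotomicField 5 ℚ) :=
    CyclotomicField.isCyclotomicExtension 5 ℚ
  have := IsCyclotomicExtension.Rat.five_pid (CyclotomicField 5 ℚ)
  exact freyPackage_false (IsCyclotomicExtension.zeta_spec 5 ℚ (CyclotomicField 5 ℚ))
    (kummerProperty_five _) germainPrime_five P hP

/-- No Frey package has exponent `7`. -/
theorem freyPackage_seven_false (P : FreyPackage) (hP : P.p = 7) : False := by
  have : Fact (Nat.Prime 7) := ⟨by norm_num⟩
  have : NeZero ((7 : ℕ) : ℚ) := ⟨by norm_num⟩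
  have : IsCyclotomicExtension {7} ℚ (CyclotomicField 7 ℚ) :=
    CyclotomicField.isCyclotomicExtension 7 ℚ
  have := Fermat.Agent.CyclotomicPID.pid_seven (CyclotomicField 7 ℚ)
  exact freyPackage_false (IsCyclotomicExtension.zeta_spec 7 ℚ (CyclotomicField 7 ℚ))
    (kummerProperty_seven _) germainPrime_seven P hP

/-- No Frey package has exponent `13`. -/
theorem freyPackage_thirteen_false (P : FreyPackage) (hP : P.p = 13) : False := by
  have : Fact (Nat.Prime 13) := ⟨by norm_num⟩
  have : NeZero ((13 : ℕ) : ℚ) := ⟨by norm_num⟩
  have : IsCyclotomicExtension {13} ℚ (CyclotomicField 13 ℚ) :=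
    CyclotomicField.isCyclotomicExtension 13 ℚ
  have := Fermat.Agent.CyclotomicPID.pid_thirteen (CyclotomicField 13 ℚ)
  exact freyPackage_false (IsCyclotomicExtension.zeta_spec 13 ℚ (CyclotomicField 13 ℚ))
    (kummerProperty_thirteen _) germainPrime_thirteen P hP

/-- The exponent of a Frey package is at least `17`. -/
theorem seventeen_le_exponent (P : FreyPackage) : 17 ≤ P.p := by
  by_contra h
  have h5 := P.hp5
  have hlt : P.p < 17 := by omega
  have hpp := P.pp
  interval_cases hp : P.p <;> first
    | exact freyPackage_five_false P hp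
    | exact freyPackage_seven_false P hp
    | exact freyPackage_eleven_false P hp
    | exact freyPackage_thirteen_false P hp
    | (norm_num at hpp)

end Fermat.Agent.SmallExponent
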